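/-
Project S35, cell [P-EQUIV] (tower identity), generic part: BASE CHANGE OF THE NORM in a square of
finite field extensions

      F  --bF-->  F'
      |           |
      E  --bE-->  E'

with `[E' : F'] = [E : F]` and `E' = F'[bE(E)]`:  `Norm_{E'/F'} (bE g) = bF (Norm_{E/F} g)`.

A basis of `E / F` is mapped by `bE` to a basis of `E' / F'`, the matrix of the multiplication by `g`
is mapped entrywise by `bF`, and the norm is its determinant.  Mathlib only.  Prefix `s35pe_`.
-/
import Mathlib

set_option autoImplicit false

namespace Fermat.Agent.S35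

open Module

section NormBC

variable {F E F' E' : Type*} [Field F] [Field E] [Field F'] [Field E']
  [Algebra F E] [Algebra F' E']

/-- `bE` is semilinear over `bF`. -/
theorem s35pe_map_smul (bF : F →+* F') (bE : E →+* E')
    (hcomm : ∀ x, bE (algebraMap F E x) = algebraMap F' E' (bF x)) (c : F) (e : E) :
    bE (c • e) = bF c • bE e := by
  rw [Algebra.smul_def, map_mul, hcomm, Algebra.smul_def]

/-- the `F'`-span of the image of `bE` is the subalgebra it generates -/
theorem s35pe_span_range (bE : E →+* E') :
    Submodule.span F' (Set.range bE) = Subalgebra.toSubmodule (Algebra.adjoin F' (Set.range bE)) := by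
  rw [Algebra.adjoin_eq_span]
  congr 1
  have : (Set.range bE) = ((MonoidHom.mrange (bE : E →* E') : Submonoid E') : Set E') := by
    ext x; simp
  rw [this, Submonoid.closure_eq]

/-- the image of a basis spans -/
theorem s35pe_span_image {ι : Type*} [Fintype ι] (b : Basis ι F E) (bF : F →+* F') (bE : E →+* E')
    (hcomm : ∀ x, bE (algebraMap F E x) = algebraMap F' E' (bF x))
    (hgen : Algebra.adjoin F' (Set.range bE) = ⊤) :
    ⊤ ≤ Submodule.span F' (Set.range fun i => bE (b i)) := by
  have h1 : Submodule.span F' (Set.range bE) = ⊤ := by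
    rw [s35pe_span_range, hgen, Algebra.top_toSubmodule]
  rw [← h1, Submodule.span_le]
  rintro _ ⟨e, rfl⟩
  rw [← b.sum_repr e, map_sum]
  refine Submodule.sum_mem _ fun i _ => ?_
  rw [s35pe_map_smul bF bE hcomm]
  exact Submodule.smul_mem _ _ (Submodule.subset_span ⟨i, rfl⟩)

/-- **Base change of the norm.** -/
theorem s35pe_norm_baseChange [FiniteDimensional F E] (bF : F →+* F') (bE : E →+* E')
    (hcomm : ∀ x, bE (algebraMap F E x) = algebraMap F' E' (bF x))
    (hdeg : finrank F' E' = finrank F E)
    (hgen : Algebra.adjoin F' (Set.range bE) = ⊤) (g : E) :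
    Algebra.norm F' (bE g) = bF (Algebra.norm F g) := by
  classical
  set b : Basis (Fin (finrank F E)) F E := Module.finBasis F E with hb
  have hspan := s35pe_span_image b bF bE hcomm hgen
  have hcard : Fintype.card (Fin (finrank F E)) = finrank F' E' := by
    rw [Fintype.card_fin, hdeg]
  set b' : Basis (Fin (finrank F E)) F' E' :=
    basisOfTopLeSpanOfCardEqFinrank (fun i => bE (b i)) hspan hcard with hb'
  have hb'i : ∀ i, b' i = bE (b i) := fun i => by
    rw [hb', coe_basisOfTopLeSpanOfCardEqFinrank]
  rw [Algebra.norm_eq_matrix_det b', Algebra.norm_eq_matrix_det b, RingHom.map_det]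
  congr 1
  ext i j
  rw [RingHom.mapMatrix_apply, Matrix.map_apply, Algebra.leftMulMatrix_eq_repr_mul,
    Algebra.leftMulMatrix_eq_repr_mul, hb'i, ← map_mul]
  have h2 : bE (g * b j) = ∑ k, bF (b.repr (g * b j) k) • b' k := by
    conv_lhs => rw [← b.sum_repr (g * b j)]
    rw [map_sum]
    refine Finset.sum_congr rfl fun k _ => ?_
    rw [s35pe_map_smul bF bE hcomm, hb'i]
  rw [h2, Basis.repr_sum_self]

end NormBC

end Fermat.Agent.S35
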