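/-
Project S35, cell [P-EQUIV] (tower identity): NORMS ALONG ALGEBRA HOMOMORPHISMS (the prelude's
`algebraAlong` instances), their transitivity and base change; restriction of an endomorphism of an
ambient field to intermediate fields and its degree.  Prefix `s35pe_`.
-/
import Mathlib
import Fermat.Prelude.Def_AlgebraicCurve_Correspondence
import Fermat.Agent.S35.PEquiv.NormBC

set_option autoImplicit false
set_option linter.unusedSectionVars false
set_option linter.style.haveILetI false

noncomputable section

namespace Fermat.Agent.S35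

open AlgebraicCurve Module

section NormAlong

variable {K : Type*} [Field K]

/-- the norm along an algebra homomorphism `φ : F → F'` (for the prelude's `algebraAlong φ`) -/
def s35pe_normAlong {F F' : Type*} [Field F] [Field F'] [Algebra K F] [Algebra K F']
    (φ : F →ₐ[K] F') : F' →* F :=
  letI := algebraAlong φ
  Algebra.norm F

theorem s35pe_normAlong_apply {F F' : Type*} [Field F] [Field F'] [Algebra K F] [Algebra K F']
    (φ : F →ₐ[K] F') (x : F') :
    s35pe_normAlong φ x = (letI := algebraAlong φ; Algebra.norm F x) := rfl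

/-- **transitivity** -/
theorem s35pe_normAlong_comp {F F' F'' : Type*} [Field F] [Field F'] [Field F''] [Algebra K F]
    [Algebra K F'] [Algebra K F''] (φ : F →ₐ[K] F') (ψ : F' →ₐ[K] F'') (z : F'') :
    s35pe_normAlong φ (s35pe_normAlong ψ z) = s35pe_normAlong (ψ.comp φ) z := by
  letI i1 := algebraAlong φ
  letI i2 := algebraAlong ψ
  letI i3 := algebraAlong (ψ.comp φ)
  haveI : IsScalarTower F F' F'' := IsScalarTower.of_algebraMap_eq fun x => rfl
  exact Algebra.norm_norm (R := F) (S := F') (A := F'') (a := z)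

/-- **base change** in a commutative square with equal degrees and generation. -/
theorem s35pe_normAlong_baseChange {F E F' E' : Type*} [Field F] [Field E] [Field F'] [Field E']
    [Algebra K F] [Algebra K E] [Algebra K F'] [Algebra K E']
    (γ₀ : F →ₐ[K] E) (γ₁ : F' →ₐ[K] E') (b₀ : F →+* F') (b₁ : E →+* E')
    (hcomm : ∀ x, b₁ (γ₀ x) = γ₁ (b₀ x))
    (hpos : 0 < finrankAlong K γ₀) (hdeg : finrankAlong K γ₁ = finrankAlong K γ₀)
    (hgen : ∀ S : Subfield E', (∀ x, γ₁ x ∈ S) → (∀ y, b₁ y ∈ S) → S = ⊤) (g : E) :
    s35pe_normAlong γ₁ (b₁ g) = b₀ (s35pe_normAlong γ₀ g) := by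
  letI i0 := algebraAlong γ₀
  letI i1 := algebraAlong γ₁
  haveI hf0 : FiniteDimensional F E := Module.finite_of_finrank_pos hpos
  haveI hf1 : FiniteDimensional F' E' := Module.finite_of_finrank_pos (by
    have : finrank F' E' = finrank F E := hdeg
    rw [this]; exact hpos)
  refine s35pe_norm_baseChange b₀ b₁ hcomm hdeg ?_ g
  -- generation
  have halg : Algebra.IsAlgebraic F' E' := Algebra.IsAlgebraic.of_finite F' E'
  set A : Subalgebra F' E' := Algebra.adjoin F' (Set.range b₁) with hA
  set I : IntermediateField F' E' := subalgebraEquivIntermediateField A with hI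
  have hIA : ∀ x, x ∈ I ↔ x ∈ A := fun x => by
    rw [hI, mem_subalgebraEquivIntermediateField]
  have h := hgen I.toSubfield (fun x => I.algebraMap_mem x)
    (fun y => (hIA _).mpr (Algebra.subset_adjoin ⟨y, rfl⟩))
  rw [eq_top_iff]
  intro x _
  have hx : x ∈ I.toSubfield := by rw [h]; trivial
  exact (hIA x).mp hx

end NormAlong

/-! ### restriction of an ambient endomorphism to intermediate fields -/

section Res

variable {K Ω : Type*} [Field K] [Field Ω] [Algebra K Ω]

/-- the restriction `F → F'` of an ambient `K`-algebra endomorphism `e` with `e(F) ⊆ F'` -/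
def s35pe_res (e : Ω →ₐ[K] Ω) (F F' : IntermediateField K Ω) (h : ∀ x ∈ F, e x ∈ F') :
    F →ₐ[K] F' :=
  (e.comp F.val).codRestrict F'.toSubalgebra fun x => h x x.2

@[simp]
theorem s35pe_coe_res (e : Ω →ₐ[K] Ω) (F F' : IntermediateField K Ω) (h : ∀ x ∈ F, e x ∈ F')
    (x : F) : ((s35pe_res e F F' h x : F') : Ω) = e (x : Ω) := rfl

/-- the degree along a restriction is the relative degree over the image -/
theorem s35pe_finrankAlong_res (e : Ω →ₐ[K] Ω) (F F' : IntermediateField K Ω)
    (h : ∀ x ∈ F, e x ∈ F') :
    finrankAlong K (s35pe_res e F F' h) = IntermediateField.relfinrank (F.map e) F' := by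
  have h' : F.map e ≤ F' := by
    rintro _ ⟨x, hx, rfl⟩
    exact h x hx
  rw [IntermediateField.relfinrank_eq_finrank_of_le h', finrankAlong]
  letI := algebraAlong (s35pe_res e F F' h)
  let i : F ≃+* F.map e := (F.equivMap e).toRingEquiv
  let j : F' ≃+* IntermediateField.extendScalars h' :=
    { toFun := fun x => ⟨x.1, x.2⟩
      invFun := fun x => ⟨x.1, x.2⟩
      left_inv := fun _ => rfl
      right_inv := fun _ => rfl
      map_mul' := fun _ _ => rfl
      map_add' := fun _ _ => rfl }
  refine Algebra.finrank_eq_of_equiv_equiv i j ?_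
  refine RingHom.ext fun x => ?_
  apply Subtype.ext
  rfl

/-- the inclusion as a restriction of the identity -/
theorem s35pe_inclusion_eq_res {F F' : IntermediateField K Ω} (h : F ≤ F') :
    IntermediateField.inclusion h = s35pe_res (AlgHom.id K Ω) F F' (fun _ hx => h hx) :=
  AlgHom.ext fun _ => Subtype.ext rfl

theorem s35pe_finrankAlong_inclusion {F F' : IntermediateField K Ω} (h : F ≤ F') :
    finrankAlong K (IntermediateField.inclusion h) = IntermediateField.relfinrank F F' := by
  rw [s35pe_inclusion_eq_res, s35pe_finrankAlong_res, IntermediateField.map_id]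

/-- a subfield of `F₃ = K(s)` containing the constants and the generators is everything -/
theorem s35pe_subfield_eq_top {F₃ : IntermediateField K Ω} {s : Set Ω}
    (hF₃ : F₃ = IntermediateField.adjoin K s) (S : Subfield F₃)
    (hK : ∀ c : K, algebraMap K F₃ c ∈ S) (hs : ∀ x ∈ s, ∀ h : x ∈ F₃, (⟨x, h⟩ : F₃) ∈ S) :
    S = ⊤ := by
  rw [eq_top_iff]
  rintro ⟨z, hz⟩ _
  have key : ∀ x ∈ IntermediateField.adjoin K s, ∀ h : x ∈ F₃, (⟨x, h⟩ : F₃) ∈ S := by
    intro x hx
    induction hx using IntermediateField.adjoin_induction with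
    | mem y hy => exact hs y hy
    | algebraMap r => exact fun h => hK r
    | add x y hx hy ihx ihy =>
      intro h
      have hx' : x ∈ F₃ := hF₃ ▸ hx
      have hy' : y ∈ F₃ := hF₃ ▸ hy
      exact add_mem (ihx hx') (ihy hy')
    | inv x hx ihx =>
      intro h
      have hx' : x ∈ F₃ := hF₃ ▸ hx
      exact inv_mem (ihx hx')
    | mul x y hx hy ihx ihy =>
      intro h
      have hx' : x ∈ F₃ := hF₃ ▸ hx
      have hy' : y ∈ F₃ := hF₃ ▸ hy
      exact mul_mem (ihx hx') (ihy hy')
  exact key z (hF₃ ▸ hz) hz

end Res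

end Fermat.Agent.S35
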