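/-
Project S35, cell [P-EQUIV]: THE KUMMER TRICK.  In a square of function fields over `K`

      F₀ --a₀,b₀--> F₂
      |γ₀
      F₁ --a₁,b₁--> F₃

a function identity `N_{γ₀} (N_{a₁} (b₁ g)) = N_{a₀} (b₀ (N_{γ₀} g))` gives, for every divisor `D` of
`F₁` some nonzero multiple of which is principal,

  `(γ₀)_* (a₁)_* (b₁)^* D = (a₀)_* (b₀)^* (γ₀)_* D`

(the divisor group is torsion free; pull-back of `div g` is `div (φ g)`; push-forward of `div f` is
`div (N f)` by the norm formula).  Prelude + Mathlib only.  Prefix `s35pe_`.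
-/
import Mathlib
import Fermat.Agent.S35.PEquiv.NormAlong

set_option autoImplicit false
set_option linter.unusedSectionVars false
set_option linter.style.haveILetI false

noncomputable section

namespace Fermat.Agent.S35

open AlgebraicCurve Module

section Kummer

variable {K : Type*} [Field K]

/-- pull-back of `div f` along `φ` is `div (φ f)` -/
theorem s35pe_pullbackAlong_ord {F F' : Type*} [Field F] [Field F'] [Algebra K F] [Algebra K F']
    [HasPrincipalDivisors K F'] (φ : F →ₐ[K] F') (hφ : φ.toRingHom.IsIntegral)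
    {D : Divisor K F} {f : F} (hD : ∀ v : Place K F, D v = v.ord f) (w : Place K F') :
    Divisor.pullbackAlong φ hφ D w = w.ord (φ f) := by
  letI := algebraAlong φ
  haveI := isScalarTower_along φ
  haveI := isIntegral_along φ hφ
  exact Divisor.pullback_apply_eq_ord hD w

/-- push-forward of `div f` along `φ` is `div (N_φ f)` -/
theorem s35pe_pushforwardAlong_ord {F F' : Type*} [Field F] [Field F'] [Algebra K F]
    [Algebra K F'] (φ : F →ₐ[K] F') (hφ : φ.toRingHom.IsIntegral) (hfin : FiniteAlong K φ)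
    (hN : NormFormulaAlong K φ hfin)
    {D : Divisor K F'} {f : F'} (hf : f ≠ 0) (hD : ∀ w : Place K F', D w = w.ord f)
    (v : Place K F) :
    Divisor.pushforwardAlong φ hφ D v = v.ord (s35pe_normAlong φ f) := by
  letI := algebraAlong φ
  haveI := isScalarTower_along φ
  haveI := isIntegral_along φ hφ
  haveI : Module.Finite F F' := hfin
  exact hN f hf D hD v

theorem s35pe_normAlong_ne_zero {F F' : Type*} [Field F] [Field F'] [Algebra K F]
    [Algebra K F'] (φ : F →ₐ[K] F') (hfin : FiniteAlong K φ) {f : F'} (hf : f ≠ 0) :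
    s35pe_normAlong φ f ≠ 0 := by
  letI := algebraAlong φ
  haveI : Module.Finite F F' := hfin
  exact Algebra.norm_ne_zero_iff.mpr hf

/-- the divisor group is torsion free -/
theorem s35pe_divisor_eq_of_nsmul_eq {F : Type*} [Field F] [Algebra K F] {m : ℕ} (hm : m ≠ 0)
    {X Y : Divisor K F} (h : m • X = m • Y) : X = Y := by
  refine Finsupp.ext fun v => ?_
  have h1 := DFunLike.congr_fun h v
  rw [Finsupp.smul_apply, Finsupp.smul_apply, nsmul_eq_mul, nsmul_eq_mul] at h1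
  exact mul_left_cancel₀ (by exact_mod_cast hm) h1

/-- **the Kummer trick** -/
theorem s35pe_div_comm {F₀ F₁ F₂ F₃ : Type*} [Field F₀] [Field F₁] [Field F₂] [Field F₃]
    [Algebra K F₀] [Algebra K F₁] [Algebra K F₂] [Algebra K F₃]
    [HasPrincipalDivisors K F₂] [HasPrincipalDivisors K F₃]
    (γ₀ : F₀ →ₐ[K] F₁) (a₁ b₁ : F₁ →ₐ[K] F₃) (a₀ b₀ : F₀ →ₐ[K] F₂)
    (hγ₀ : γ₀.toRingHom.IsIntegral) (ha₁ : a₁.toRingHom.IsIntegral)
    (hb₁ : b₁.toRingHom.IsIntegral) (ha₀ : a₀.toRingHom.IsIntegral)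
    (hb₀ : b₀.toRingHom.IsIntegral)
    (fγ₀ : FiniteAlong K γ₀) (fa₁ : FiniteAlong K a₁) (fa₀ : FiniteAlong K a₀)
    (nγ₀ : NormFormulaAlong K γ₀ fγ₀) (na₁ : NormFormulaAlong K a₁ fa₁)
    (na₀ : NormFormulaAlong K a₀ fa₀)
    (hid : ∀ g : F₁, s35pe_normAlong γ₀ (s35pe_normAlong a₁ (b₁ g)) =
      s35pe_normAlong a₀ (b₀ (s35pe_normAlong γ₀ g)))
    (D : Divisor K F₁) (m : ℕ) (hm : m ≠ 0) (hD : (m • D).IsPrincipal) :
    Divisor.pushforwardAlong γ₀ hγ₀
        (Divisor.correspondence b₁ a₁ hb₁ ha₁ D) =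
      Divisor.correspondence b₀ a₀ hb₀ ha₀ (Divisor.pushforwardAlong γ₀ hγ₀ D) := by
  obtain ⟨g, hg, hDg⟩ := hD
  refine s35pe_divisor_eq_of_nsmul_eq hm ?_
  rw [Divisor.correspondence_apply, Divisor.correspondence_apply, ← map_nsmul, ← map_nsmul,
    ← map_nsmul, ← map_nsmul, ← map_nsmul, ← map_nsmul]
  refine Finsupp.ext fun v => ?_
  -- left-hand side
  have hb₁g : b₁ g ≠ 0 := (map_ne_zero b₁).mpr hg
  have h1 := s35pe_pullbackAlong_ord b₁ hb₁ hDg
  have h2 := s35pe_pushforwardAlong_ord a₁ ha₁ fa₁ na₁ hb₁g h1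
  have h3 := s35pe_pushforwardAlong_ord γ₀ hγ₀ fγ₀ nγ₀ (s35pe_normAlong_ne_zero a₁ fa₁ hb₁g) h2 v
  -- right-hand side
  have k1 := s35pe_pushforwardAlong_ord γ₀ hγ₀ fγ₀ nγ₀ hg hDg
  have hNg : s35pe_normAlong γ₀ g ≠ 0 := s35pe_normAlong_ne_zero γ₀ fγ₀ hg
  have k2 := s35pe_pullbackAlong_ord b₀ hb₀ k1
  have k3 := s35pe_pushforwardAlong_ord a₀ ha₀ fa₀ na₀ ((map_ne_zero b₀).mpr hNg) k2 v
  rw [h3, k3, hid]

end Kummer

end Fermat.Agent.S35
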