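/-
Project S35, cell [P-EQUIV] (tower identity): THE NORM IDENTITY IN A SQUARE OF LEVEL FIELDS, abstract
form.  Ambient field `Ω / K` with two commuting endomorphisms `eq`, `eℓ` (`X ↦ X^q`, `X ↦ X^ℓ`), four
intermediate fields

      F₀ ⊆ F₂           (levels  A ,  A ℓ)
      ∩    ∩
      F₁ ⊆ F₃           (levels  A q, A q ℓ)

`a₀ : F₀ → F₂`, `a₁ : F₁ → F₃` the inclusions, `b₀ : F₀ → F₂`, `b₁ : F₁ → F₃` the restrictions of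
`eℓ`, and `γ₀ : F₀ → F₁` either the inclusion (`α`-case) or the restriction of `eq` (`β`-case):

  `Norm_{γ₀} (Norm_{a₁} (b₁ g)) = Norm_{a₀} (b₀ (Norm_{γ₀} g))`.

Mathlib + prelude definitions only.  Prefix `s35pe_`.
-/
import Mathlib
import Fermat.Agent.S35.PEquiv.NormAlong

set_option autoImplicit false
set_option linter.unusedSectionVars false
set_option linter.style.haveILetI false

noncomputable section

namespace Fermat.Agent.S35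

open AlgebraicCurve Module

/-- the formal square -/
theorem s35pe_norm_square {K F₀ F₁ F₂ F₃ : Type*} [Field K] [Field F₀] [Field F₁] [Field F₂]
    [Field F₃] [Algebra K F₀] [Algebra K F₁] [Algebra K F₂] [Algebra K F₃]
    (γ₀ : F₀ →ₐ[K] F₁) (a₁ : F₁ →ₐ[K] F₃) (a₀ : F₀ →ₐ[K] F₂) (γ₁ : F₂ →ₐ[K] F₃)
    (b₀ : F₀ →+* F₂) (b₁ : F₁ →+* F₃) (hsq : a₁.comp γ₀ = γ₁.comp a₀)
    (hcomm : ∀ x, b₁ (γ₀ x) = γ₁ (b₀ x))
    (hpos : 0 < finrankAlong K γ₀) (hdeg : finrankAlong K γ₁ = finrankAlong K γ₀)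
    (hgen : ∀ S : Subfield F₃, (∀ x, γ₁ x ∈ S) → (∀ y, b₁ y ∈ S) → S = ⊤) (g : F₁) :
    s35pe_normAlong γ₀ (s35pe_normAlong a₁ (b₁ g)) =
      s35pe_normAlong a₀ (b₀ (s35pe_normAlong γ₀ g)) := by
  rw [s35pe_normAlong_comp, hsq, ← s35pe_normAlong_comp,
    s35pe_normAlong_baseChange γ₀ γ₁ b₀ b₁ hcomm hpos hdeg hgen]

section Ambient

variable {K Ω : Type*} [Field K] [Field Ω] [Algebra K Ω]
variable (eq eℓ : Ω →ₐ[K] Ω) (hcomm : ∀ x, eq (eℓ x) = eℓ (eq x))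
variable (F₀ F₁ F₂ F₃ : IntermediateField K Ω)
variable (h01 : F₀ ≤ F₁) (h13 : F₁ ≤ F₃) (h02 : F₀ ≤ F₂) (h23 : F₂ ≤ F₃)
variable (hℓ02 : ∀ x ∈ F₀, eℓ x ∈ F₂) (hℓ13 : ∀ x ∈ F₁, eℓ x ∈ F₃)

/-- generation in the `α`-case -/
theorem s35pe_gen_alpha {s : Set Ω} (hF₃ : F₃ = IntermediateField.adjoin K s)
    (hs : ∀ x ∈ s, x ∈ F₂ ∨ ∃ y ∈ F₁, eℓ y = x) (S : Subfield F₃)
    (h2 : ∀ x : F₂, IntermediateField.inclusion h23 x ∈ S)
    (h1 : ∀ y : F₁, s35pe_res eℓ F₁ F₃ hℓ13 y ∈ S) : S = ⊤ := by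
  refine s35pe_subfield_eq_top hF₃ S (fun c => ?_) fun x hx h => ?_
  · have := h2 (algebraMap K F₂ c)
    rwa [AlgHom.commutes] at this
  · rcases hs x hx with hx2 | ⟨y, hy, rfl⟩
    · exact h2 ⟨x, hx2⟩
    · exact h1 ⟨y, hy⟩

include h01 h13 h02 h23 hℓ02 hℓ13 in
/-- **the `α`-case** -/
theorem s35pe_norm_ambient_alpha {d : ℕ} (hd : 0 < d)
    (hd01 : IntermediateField.relfinrank F₀ F₁ = d)
    (hd23 : IntermediateField.relfinrank F₂ F₃ = d)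
    {s : Set Ω} (hF₃ : F₃ = IntermediateField.adjoin K s)
    (hs : ∀ x ∈ s, x ∈ F₂ ∨ ∃ y ∈ F₁, eℓ y = x) (g : F₁) :
    s35pe_normAlong (IntermediateField.inclusion h01)
        (s35pe_normAlong (IntermediateField.inclusion h13) (s35pe_res eℓ F₁ F₃ hℓ13 g)) =
      s35pe_normAlong (IntermediateField.inclusion h02)
        (s35pe_res eℓ F₀ F₂ hℓ02 (s35pe_normAlong (IntermediateField.inclusion h01) g)) := by
  refine s35pe_norm_square (IntermediateField.inclusion h01) (IntermediateField.inclusion h13)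
    (IntermediateField.inclusion h02) (IntermediateField.inclusion h23)
    (s35pe_res eℓ F₀ F₂ hℓ02 : F₀ →+* F₂) (s35pe_res eℓ F₁ F₃ hℓ13 : F₁ →+* F₃)
    (AlgHom.ext fun _ => Subtype.ext rfl) (fun _ => Subtype.ext rfl) ?_ ?_
    (fun S h2 h1 => s35pe_gen_alpha eℓ F₁ F₂ F₃ h23 hℓ13 hF₃ hs S h2 h1) g
  · rw [s35pe_finrankAlong_inclusion, hd01]; exact hd
  · rw [s35pe_finrankAlong_inclusion, s35pe_finrankAlong_inclusion, hd01, hd23]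

variable (hq01 : ∀ x ∈ F₀, eq x ∈ F₁) (hq23 : ∀ x ∈ F₂, eq x ∈ F₃)

include hcomm h01 hℓ02 hq01 in
/-- generation in the `β`-case, through an Atkin–Lehner type endomorphism `W'` of `F₃` -/
theorem s35pe_gen_beta {s : Set Ω} (hF₃ : F₃ = IntermediateField.adjoin K s)
    (hs : ∀ x ∈ s, x ∈ F₂ ∨ ∃ y ∈ F₁, eℓ y = x)
    {s₁ : Set Ω} (hF₁ : F₁ = IntermediateField.adjoin K s₁)
    (hs₁ : ∀ y ∈ s₁, y ∈ F₀ ∨ ∃ y₀ ∈ F₀, eq y₀ = y)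
    (W' : F₃ →ₐ[K] F₃)
    (hW1 : ∀ x (hx : x ∈ F₂), W' ⟨x, h23 hx⟩ = ⟨eq x, hq23 x hx⟩)
    (hW2 : ∀ x (hx : x ∈ F₂), W' ⟨eq x, hq23 x hx⟩ = ⟨x, h23 hx⟩)
    (S : Subfield F₃)
    (h2 : ∀ x : F₂, s35pe_res eq F₂ F₃ hq23 x ∈ S)
    (h1 : ∀ y : F₁, s35pe_res eℓ F₁ F₃ hℓ13 y ∈ S) : S = ⊤ := by
  -- the image of `S` under `W'`
  set S' : Subfield F₃ := S.map (W' : F₃ →+* F₃) with hS'
  have hmem : ∀ c : F₃, c ∈ S → W' c ∈ S' := fun c hc => ⟨c, hc, rfl⟩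
  have hK : ∀ c : K, algebraMap K F₃ c ∈ S' := fun c => by
    have h := hmem _ (h2 (algebraMap K F₂ c))
    rwa [AlgHom.commutes, AlgHom.commutes] at h
  -- `b₁ y ∈ S'` for all `y ∈ F₁`
  have hb : ∀ y : F₁, s35pe_res eℓ F₁ F₃ hℓ13 y ∈ S' := by
    set T : Subfield F₁ := S'.comap (s35pe_res eℓ F₁ F₃ hℓ13 : F₁ →+* F₃) with hT
    have hTtop : T = ⊤ := by
      refine s35pe_subfield_eq_top hF₁ T (fun c => ?_) fun y hy h => ?_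
      · show s35pe_res eℓ F₁ F₃ hℓ13 (algebraMap K F₁ c) ∈ S'
        rw [AlgHom.commutes]
        exact hK c
      · show s35pe_res eℓ F₁ F₃ hℓ13 ⟨y, h⟩ ∈ S'
        rcases hs₁ y hy with hy0 | ⟨y₀, hy₀, rfl⟩
        · -- `y ∈ F₀`
          have e1 : s35pe_res eℓ F₁ F₃ hℓ13 ⟨y, h⟩ =
              W' (s35pe_res eℓ F₁ F₃ hℓ13 ⟨eq y, hq01 y hy0⟩) := by
            have e2 : s35pe_res eℓ F₁ F₃ hℓ13 ⟨eq y, hq01 y hy0⟩ =
                ⟨eq (eℓ y), hq23 _ (hℓ02 y hy0)⟩ := Subtype.ext (hcomm y).symm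
            rw [e2, hW2 (eℓ y) (hℓ02 y hy0)]
            exact Subtype.ext rfl
          rw [e1]
          exact hmem _ (h1 _)
        · -- `y = eq y₀`, `y₀ ∈ F₀`
          have e1 : s35pe_res eℓ F₁ F₃ hℓ13 ⟨eq y₀, h⟩ =
              W' (s35pe_res eℓ F₁ F₃ hℓ13 ⟨y₀, h01 hy₀⟩) := by
            have e2 : s35pe_res eℓ F₁ F₃ hℓ13 ⟨y₀, h01 hy₀⟩ =
                ⟨eℓ y₀, h23 (hℓ02 y₀ hy₀)⟩ := Subtype.ext rfl
            rw [e2, hW1 (eℓ y₀) (hℓ02 y₀ hy₀)]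
            exact Subtype.ext (hcomm y₀).symm
          rw [e1]
          exact hmem _ (h1 _)
    intro y
    have : y ∈ T := by rw [hTtop]; trivial
    exact this
  -- `S' = ⊤`
  have hS'top : S' = ⊤ := by
    refine s35pe_subfield_eq_top hF₃ S' hK fun x hx h => ?_
    rcases hs x hx with hx2 | ⟨y, hy, rfl⟩
    · have e1 : (⟨x, h⟩ : F₃) = W' (s35pe_res eq F₂ F₃ hq23 ⟨x, hx2⟩) := by
        have e2 : s35pe_res eq F₂ F₃ hq23 ⟨x, hx2⟩ = ⟨eq x, hq23 x hx2⟩ := Subtype.ext rfl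
        rw [e2, hW2 x hx2]
      rw [e1]
      exact hmem _ (h2 _)
    · exact hb ⟨y, hy⟩
  -- conclusion
  rw [eq_top_iff]
  intro z _
  have hz : W' z ∈ S' := by rw [hS'top]; trivial
  obtain ⟨c, hc, hcz⟩ := hz
  have : c = z := (W' : F₃ →+* F₃).injective hcz
  rwa [← this]

include hcomm h01 h13 h02 h23 hℓ02 hℓ13 hq01 hq23 in
/-- **the `β`-case** -/
theorem s35pe_norm_ambient_beta {d : ℕ} (hd : 0 < d)
    (hd01 : IntermediateField.relfinrank (F₀.map eq) F₁ = d)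
    (hd23 : IntermediateField.relfinrank (F₂.map eq) F₃ = d)
    {s : Set Ω} (hF₃ : F₃ = IntermediateField.adjoin K s)
    (hs : ∀ x ∈ s, x ∈ F₂ ∨ ∃ y ∈ F₁, eℓ y = x)
    {s₁ : Set Ω} (hF₁ : F₁ = IntermediateField.adjoin K s₁)
    (hs₁ : ∀ y ∈ s₁, y ∈ F₀ ∨ ∃ y₀ ∈ F₀, eq y₀ = y)
    (W' : F₃ →ₐ[K] F₃)
    (hW1 : ∀ x (hx : x ∈ F₂), W' ⟨x, h23 hx⟩ = ⟨eq x, hq23 x hx⟩)
    (hW2 : ∀ x (hx : x ∈ F₂), W' ⟨eq x, hq23 x hx⟩ = ⟨x, h23 hx⟩) (g : F₁) :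
    s35pe_normAlong (s35pe_res eq F₀ F₁ hq01)
        (s35pe_normAlong (IntermediateField.inclusion h13) (s35pe_res eℓ F₁ F₃ hℓ13 g)) =
      s35pe_normAlong (IntermediateField.inclusion h02)
        (s35pe_res eℓ F₀ F₂ hℓ02 (s35pe_normAlong (s35pe_res eq F₀ F₁ hq01) g)) := by
  refine s35pe_norm_square (s35pe_res eq F₀ F₁ hq01) (IntermediateField.inclusion h13)
    (IntermediateField.inclusion h02) (s35pe_res eq F₂ F₃ hq23)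
    (s35pe_res eℓ F₀ F₂ hℓ02 : F₀ →+* F₂) (s35pe_res eℓ F₁ F₃ hℓ13 : F₁ →+* F₃)
    (AlgHom.ext fun _ => Subtype.ext rfl) (fun x => Subtype.ext (hcomm x).symm) ?_ ?_
    (fun S h2 h1 => s35pe_gen_beta eq eℓ hcomm F₀ F₁ F₂ F₃ h01 h23 hℓ02 hℓ13 hq01 hq23 hF₃ hs hF₁
      hs₁ W' hW1 hW2 S h2 h1) g
  · rw [s35pe_finrankAlong_res, hd01]; exact hd
  · rw [s35pe_finrankAlong_res, s35pe_finrankAlong_res, hd01, hd23]

end Ambient

end Fermat.Agent.S35
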