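/-
Project S35, cell [P-EQUIV]: THE TOWER IDENTITY for the level fields `F̄_M = Q̄(j(X^d) : d ∣ M)`.

For `q` prime, `q ∤ A ℓ`, and `g ∈ F̄_{A q}`, with `α` = inclusion, `β_n = (X ↦ X^n)` (the prelude's
`heckeAlphaBar`, `heckeBetaBar`) and norms along the prelude's `algebraAlong` instances:

* `s35pe_norm_comm_alpha` :
    `N_{α_q^A} (N_{α_ℓ^{Aq}} (β_ℓ^{Aq} g)) = N_{α_ℓ^A} (β_ℓ^A (N_{α_q^A} g))`,
* `s35pe_norm_comm_beta`  :
    `N_{β_q^A} (N_{α_ℓ^{Aq}} (β_ℓ^{Aq} g)) = N_{α_ℓ^A} (β_ℓ^A (N_{β_q^A} g))`.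

These are the function identities behind `P_i ∘ T_ℓ = T_ℓ ∘ P_i` (`P_1 = (α_q)_*`, `P_2 = (β_q)_*`,
`T_ℓ = (α_ℓ)_* (β_ℓ)^*`) on torsion classes (Kummer trick).

Inputs: helper11's degrees `ssm_al_relfinrank`, `ssm_al_relfinrank_beta`, the two-generator lemma
`ssm_al_F_eq_adjoin_pair`, helper24's Atkin–Lehner endomorphism (`ssm_al_Wbar`).  Prefix `s35pe_`.
-/
import Mathlib
import Fermat.Agent.S35.PEquiv.Square
import Fermat.Agent.SS.Model.ALE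
import Fermat.Agent.JT3.Inst.Defs

set_option autoImplicit false
set_option linter.unusedSectionVars false
set_option linter.style.haveILetI false

noncomputable section

namespace Fermat.Agent.S35

open AlgebraicCurve ModularCurve Module
open Fermat.Agent.S24 Fermat.Agent.JT3 Fermat.Agent.SS

/-- the level-`M` field over `Q̄` as an intermediate field of `Q̄((X))` (prelude form) -/
abbrev s35pe_FL (M : ℕ) [NeZero M] : IntermediateField Kbar (LaurentSeries Kbar) :=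
  laurentBaseChange Kbar (modularFunctionFieldFull M)

theorem s35pe_FL_eq (M : ℕ) [NeZero M] : s35pe_FL M = lg_F Kbar M :=
  (lg_F_eq_laurentBaseChange Kbar M).symm

theorem s35pe_FL_congr {n m : ℕ} [NeZero n] [NeZero m] (h : n = m) : s35pe_FL n = s35pe_FL m := by
  subst h; rfl

theorem s35pe_FL_mono {M M' : ℕ} [NeZero M] [NeZero M'] (h : M ∣ M') :
    s35pe_FL M ≤ s35pe_FL M' := by
  rw [s35pe_FL_eq, s35pe_FL_eq]
  exact full_degeneracyC_le Kbar h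

theorem s35pe_FL_expand {M M' n : ℕ} [NeZero M] [NeZero M'] [NeZero n] (h : M * n ∣ M')
    {x : LaurentSeries Kbar} (hx : x ∈ s35pe_FL M) : qExpandAlgHomC Kbar n x ∈ s35pe_FL M' := by
  rw [s35pe_FL_eq] at hx
  have h1 : qExpandAlgHomC Kbar n x ∈ lg_F Kbar (M * n) :=
    full_degeneracyC_map_le Kbar M n ⟨x, hx, rfl⟩
  rw [s35pe_FL_eq]
  exact full_degeneracyC_le Kbar h h1

theorem s35pe_FL_adjoin_pair (M : ℕ) [NeZero M] :
    s35pe_FL M = IntermediateField.adjoin Kbar {jqModC Kbar, qExpand Kbar M (jqModC Kbar)} := by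
  rw [s35pe_FL_eq]
  exact ssm_al_F_eq_adjoin_pair Kbar M

theorem s35pe_j_mem (M : ℕ) [NeZero M] : jqModC Kbar ∈ s35pe_FL M := by
  rw [s35pe_FL_eq]
  exact jqModC_mem_full Kbar M

theorem s35pe_jd_mem (M : ℕ) [NeZero M] {d : ℕ} [NeZero d] (hd : d ∣ M) :
    qExpand Kbar d (jqModC Kbar) ∈ s35pe_FL M := by
  rw [s35pe_FL_eq]
  exact jqModCd_mem_full Kbar M hd

theorem s35pe_alpha_eq (M n : ℕ) [NeZero M] [NeZero n] :
    heckeAlphaBar Kbar M n = IntermediateField.inclusion (s35pe_FL_mono (Dvd.intro n rfl)) :=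
  rfl

theorem s35pe_beta_eq (M n : ℕ) [NeZero M] [NeZero n] :
    heckeBetaBar Kbar M n = s35pe_res (qExpandAlgHomC Kbar n) (s35pe_FL M) (s35pe_FL (M * n))
      (fun _ hx => s35pe_FL_expand dvd_rfl hx) :=
  AlgHom.ext fun _ => Subtype.ext rfl

section Levels

variable (A q ℓ : ℕ) [NeZero A] [NeZero q] [NeZero ℓ]

theorem s35pe_qExpand_comm (x : LaurentSeries Kbar) :
    qExpandAlgHomC Kbar q (qExpandAlgHomC Kbar ℓ x) =
      qExpandAlgHomC Kbar ℓ (qExpandAlgHomC Kbar q x) := by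
  rw [qExpandAlgHomC_apply, qExpandAlgHomC_apply, qExpandAlgHomC_apply, qExpandAlgHomC_apply,
    qExpand_qExpand, qExpand_qExpand]
  exact qExpand_congr (mul_comm q ℓ) x

/-- generators of the top field -/
theorem s35pe_top_gen :
    ∀ x ∈ ({jqModC Kbar, qExpand Kbar (A * q * ℓ) (jqModC Kbar)} : Set (LaurentSeries Kbar)),
      x ∈ s35pe_FL (A * ℓ) ∨ ∃ y ∈ s35pe_FL (A * q), qExpandAlgHomC Kbar ℓ y = x := by
  intro x hx
  rcases hx with rfl | rfl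
  · exact Or.inl (s35pe_j_mem (A * ℓ))
  · refine Or.inr ⟨qExpand Kbar (A * q) (jqModC Kbar), s35pe_jd_mem (A * q) dvd_rfl, ?_⟩
    rw [qExpandAlgHomC_apply, qExpand_qExpand]
    exact qExpand_congr (mul_comm ℓ (A * q)) _

/-- generators of the level-`A q` field -/
theorem s35pe_mid_gen :
    ∀ y ∈ ({jqModC Kbar, qExpand Kbar (A * q) (jqModC Kbar)} : Set (LaurentSeries Kbar)),
      y ∈ s35pe_FL A ∨ ∃ y₀ ∈ s35pe_FL A, qExpandAlgHomC Kbar q y₀ = y := by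
  intro y hy
  rcases hy with rfl | rfl
  · exact Or.inl (s35pe_j_mem A)
  · refine Or.inr ⟨qExpand Kbar A (jqModC Kbar), s35pe_jd_mem A dvd_rfl, ?_⟩
    rw [qExpandAlgHomC_apply, qExpand_qExpand]
    exact qExpand_congr (mul_comm q A) _

variable (hq : q.Prime)

include hq in
theorem s35pe_relfinrank_alpha (M : ℕ) [NeZero M] (hqM : ¬ q ∣ M) :
    IntermediateField.relfinrank (s35pe_FL M) (s35pe_FL (M * q)) = q + 1 := by
  rw [s35pe_FL_eq, s35pe_FL_eq]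
  exact ssm_al_relfinrank Kbar M q hq hqM

include hq in
theorem s35pe_relfinrank_beta (M : ℕ) [NeZero M] (hqM : ¬ q ∣ M) :
    IntermediateField.relfinrank ((s35pe_FL M).map (qExpandAlgHomC Kbar q)) (s35pe_FL (M * q)) =
      q + 1 := by
  rw [s35pe_FL_eq, s35pe_FL_eq]
  exact ssm_al_relfinrank_beta Kbar M q hq hqM

include hq in
/-- **the `α`-identity** -/
theorem s35pe_norm_comm_alpha (hqA : ¬ q ∣ A * ℓ) (g : Fbar (A * q)) :
    s35pe_normAlong (heckeAlphaBar Kbar A q)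
        (s35pe_normAlong (heckeAlphaBar Kbar (A * q) ℓ) (heckeBetaBar Kbar (A * q) ℓ g)) =
      s35pe_normAlong (heckeAlphaBar Kbar A ℓ)
        (heckeBetaBar Kbar A ℓ (s35pe_normAlong (heckeAlphaBar Kbar A q) g)) := by
  have hqA' : ¬ q ∣ A := fun h => hqA (h.mul_right ℓ)
  have hcongr : s35pe_FL (A * ℓ * q) = s35pe_FL (A * q * ℓ) :=
    s35pe_FL_congr (Nat.mul_right_comm A ℓ q)
  have hd23 : IntermediateField.relfinrank (s35pe_FL (A * ℓ)) (s35pe_FL (A * q * ℓ)) = q + 1 := by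
    rw [← hcongr]
    exact s35pe_relfinrank_alpha q hq (A * ℓ) hqA
  rw [s35pe_alpha_eq, s35pe_alpha_eq, s35pe_alpha_eq, s35pe_beta_eq, s35pe_beta_eq]
  exact s35pe_norm_ambient_alpha (qExpandAlgHomC Kbar ℓ) (s35pe_FL A) (s35pe_FL (A * q))
    (s35pe_FL (A * ℓ)) (s35pe_FL (A * q * ℓ)) _ _ _
    (s35pe_FL_mono ⟨q, (Nat.mul_right_comm A ℓ q).symm⟩) _ _ (Nat.succ_pos q)
    (s35pe_relfinrank_alpha q hq A hqA') hd23 (s35pe_FL_adjoin_pair (A * q * ℓ))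
    (s35pe_top_gen A q ℓ) g

include hq in
/-- the Atkin–Lehner endomorphism of the level-`M q` field, in ambient form and for any
presentation `F₃` of that field -/
theorem s35pe_exists_W (M : ℕ) [NeZero M] (hqM : ¬ q ∣ M)
    (F₃ : IntermediateField Kbar (LaurentSeries Kbar)) (hF₃ : F₃ = s35pe_FL (M * q))
    (h23 : s35pe_FL M ≤ F₃) (hq23 : ∀ x ∈ s35pe_FL M, qExpandAlgHomC Kbar q x ∈ F₃) :
    ∃ W' : F₃ →ₐ[Kbar] F₃,
      (∀ x (hx : x ∈ s35pe_FL M), W' ⟨x, h23 hx⟩ = ⟨qExpandAlgHomC Kbar q x, hq23 x hx⟩) ∧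
      (∀ x (hx : x ∈ s35pe_FL M), W' ⟨qExpandAlgHomC Kbar q x, hq23 x hx⟩ = ⟨x, h23 hx⟩) := by
  subst hF₃
  refine ⟨ssm_al_Wbar M q hq hqM, fun x hx => ?_, fun x hx => ?_⟩
  · have h := ssm_al_Wbar_alpha M q hq hqM ⟨x, hx⟩
    have e1 : heckeAlphaBar Kbar M q ⟨x, hx⟩ = ⟨x, h23 hx⟩ := Subtype.ext rfl
    have e2 : heckeBetaBar Kbar M q ⟨x, hx⟩ = ⟨qExpandAlgHomC Kbar q x, hq23 x hx⟩ :=
      Subtype.ext rfl
    rw [e1, e2] at h
    exact h
  · have h := ssm_al_Wbar_beta M q hq hqM ⟨x, hx⟩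
    have e1 : heckeAlphaBar Kbar M q ⟨x, hx⟩ = ⟨x, h23 hx⟩ := Subtype.ext rfl
    have e2 : heckeBetaBar Kbar M q ⟨x, hx⟩ = ⟨qExpandAlgHomC Kbar q x, hq23 x hx⟩ :=
      Subtype.ext rfl
    rw [e1, e2] at h
    exact h

include hq in
/-- **the `β`-identity** -/
theorem s35pe_norm_comm_beta (hqA : ¬ q ∣ A * ℓ) (g : Fbar (A * q)) :
    s35pe_normAlong (heckeBetaBar Kbar A q)
        (s35pe_normAlong (heckeAlphaBar Kbar (A * q) ℓ) (heckeBetaBar Kbar (A * q) ℓ g)) =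
      s35pe_normAlong (heckeAlphaBar Kbar A ℓ)
        (heckeBetaBar Kbar A ℓ (s35pe_normAlong (heckeBetaBar Kbar A q) g)) := by
  have hqA' : ¬ q ∣ A := fun h => hqA (h.mul_right ℓ)
  have hcongr : s35pe_FL (A * ℓ * q) = s35pe_FL (A * q * ℓ) :=
    s35pe_FL_congr (Nat.mul_right_comm A ℓ q)
  have hd23 : IntermediateField.relfinrank
      ((s35pe_FL (A * ℓ)).map (qExpandAlgHomC Kbar q)) (s35pe_FL (A * q * ℓ)) = q + 1 := by
    rw [← hcongr]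
    exact s35pe_relfinrank_beta q hq (A * ℓ) hqA
  have h23 : s35pe_FL (A * ℓ) ≤ s35pe_FL (A * q * ℓ) :=
    s35pe_FL_mono ⟨q, (Nat.mul_right_comm A ℓ q).symm⟩
  have hq23 : ∀ x ∈ s35pe_FL (A * ℓ), qExpandAlgHomC Kbar q x ∈ s35pe_FL (A * q * ℓ) :=
    fun _ hx => s35pe_FL_expand (dvd_of_eq (Nat.mul_right_comm A ℓ q)) hx
  obtain ⟨W', hW1, hW2⟩ := s35pe_exists_W q hq (A * ℓ) hqA (s35pe_FL (A * q * ℓ)) hcongr.symm
    h23 hq23
  rw [s35pe_alpha_eq, s35pe_alpha_eq, s35pe_beta_eq, s35pe_beta_eq, s35pe_beta_eq]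
  exact s35pe_norm_ambient_beta (qExpandAlgHomC Kbar q) (qExpandAlgHomC Kbar ℓ)
    (s35pe_qExpand_comm q ℓ) (s35pe_FL A) (s35pe_FL (A * q))
    (s35pe_FL (A * ℓ)) (s35pe_FL (A * q * ℓ)) (s35pe_FL_mono (Dvd.intro q rfl)) _ _ h23 _ _ _ hq23
    (Nat.succ_pos q) (s35pe_relfinrank_beta q hq A hqA') hd23
    (s35pe_FL_adjoin_pair (A * q * ℓ)) (s35pe_top_gen A q ℓ)
    (s35pe_FL_adjoin_pair (A * q)) (s35pe_mid_gen A q) W' hW1 hW2 g

end Levels

end Fermat.Agent.S35
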