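/-
Project S35, cell [P-EQUIV], deliverable (D): on divisors of `F̄_{N q}` some nonzero multiple of which
is principal, the push-forwards `P_1 = (α_q)_*`, `P_2 = (β_q)_*` to level `N` commute with the Hecke
correspondence `T_ℓ = (α_ℓ)_* (β_ℓ)^*` (`q` prime, `q ∤ N ℓ`):

* `s35pe_div_comm_alpha`, `s35pe_div_comm_beta`  (the shape consumed by helper8's `S35/PMaps.lean`).

From the tower identities `s35pe_norm_comm_alpha/beta` (Inst.lean), the Kummer trick `s35pe_div_comm`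
(Div.lean) and helper24's `hib_*` inputs.  Prefix `s35pe_`.
-/
import Mathlib
import Fermat.Agent.S35.PEquiv.Inst
import Fermat.Agent.S35.PEquiv.Div
import Fermat.Agent.JT3.Hecke.InputsBar

set_option autoImplicit false
set_option linter.unusedSectionVars false
set_option linter.style.haveILetI false

noncomputable section

namespace Fermat.Agent.S35

open AlgebraicCurve ModularCurve Module
open Fermat.Agent.S24 Fermat.Agent.JT3

variable (N q ℓ : ℕ) [NeZero N] [NeZero q] [NeZero ℓ]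

/-- general form: `q` prime, `q ∤ N ℓ` -/
theorem s35pe_div_comm_alpha' (hq : q.Prime) (hqN : ¬ q ∣ N * ℓ)
    (D : Divisor Kbar (Fbar (N * q))) (m : ℕ) (hm : m ≠ 0) (hD : (m • D).IsPrincipal) :
    Divisor.pushforwardAlong (heckeAlphaBar Kbar N q) (hib_alphaIntegral N q)
        (Divisor.correspondence (heckeBetaBar Kbar (N * q) ℓ) (heckeAlphaBar Kbar (N * q) ℓ)
          (hib_betaIntegral (N * q) ℓ) (hib_alphaIntegral (N * q) ℓ) D) =
      Divisor.correspondence (heckeBetaBar Kbar N ℓ) (heckeAlphaBar Kbar N ℓ)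
        (hib_betaIntegral N ℓ) (hib_alphaIntegral N ℓ)
        (Divisor.pushforwardAlong (heckeAlphaBar Kbar N q) (hib_alphaIntegral N q) D) :=
  s35pe_div_comm (heckeAlphaBar Kbar N q) (heckeAlphaBar Kbar (N * q) ℓ)
    (heckeBetaBar Kbar (N * q) ℓ) (heckeAlphaBar Kbar N ℓ) (heckeBetaBar Kbar N ℓ)
    (hib_alphaIntegral N q) (hib_alphaIntegral (N * q) ℓ) (hib_betaIntegral (N * q) ℓ)
    (hib_alphaIntegral N ℓ) (hib_betaIntegral N ℓ)
    (hib_finiteAlong_alpha N q) (hib_finiteAlong_alpha (N * q) ℓ) (hib_finiteAlong_alpha N ℓ)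
    (hib_normFormulaAlong_alpha N q) (hib_normFormulaAlong_alpha (N * q) ℓ)
    (hib_normFormulaAlong_alpha N ℓ)
    (s35pe_norm_comm_alpha N q ℓ hq hqN) D m hm hD

theorem s35pe_div_comm_beta' (hq : q.Prime) (hqN : ¬ q ∣ N * ℓ)
    (D : Divisor Kbar (Fbar (N * q))) (m : ℕ) (hm : m ≠ 0) (hD : (m • D).IsPrincipal) :
    Divisor.pushforwardAlong (heckeBetaBar Kbar N q) (hib_betaIntegral N q)
        (Divisor.correspondence (heckeBetaBar Kbar (N * q) ℓ) (heckeAlphaBar Kbar (N * q) ℓ)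
          (hib_betaIntegral (N * q) ℓ) (hib_alphaIntegral (N * q) ℓ) D) =
      Divisor.correspondence (heckeBetaBar Kbar N ℓ) (heckeAlphaBar Kbar N ℓ)
        (hib_betaIntegral N ℓ) (hib_alphaIntegral N ℓ)
        (Divisor.pushforwardAlong (heckeBetaBar Kbar N q) (hib_betaIntegral N q) D) :=
  s35pe_div_comm (heckeBetaBar Kbar N q) (heckeAlphaBar Kbar (N * q) ℓ)
    (heckeBetaBar Kbar (N * q) ℓ) (heckeAlphaBar Kbar N ℓ) (heckeBetaBar Kbar N ℓ)
    (hib_betaIntegral N q) (hib_alphaIntegral (N * q) ℓ) (hib_betaIntegral (N * q) ℓ)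
    (hib_alphaIntegral N ℓ) (hib_betaIntegral N ℓ)
    (hib_finiteAlong_beta N q) (hib_finiteAlong_alpha (N * q) ℓ) (hib_finiteAlong_alpha N ℓ)
    (hib_normFormulaAlong_beta N q) (hib_normFormulaAlong_alpha (N * q) ℓ)
    (hib_normFormulaAlong_alpha N ℓ)
    (s35pe_norm_comm_beta N q ℓ hq hqN) D m hm hD

omit [NeZero N] [NeZero q] [NeZero ℓ] in
theorem s35pe_not_dvd_mul (hq : q.Prime) (hqN : ¬ q ∣ N) (hℓ : ℓ.Prime) (hℓN : ¬ ℓ ∣ N * q) :
    ¬ q ∣ N * ℓ := by
  intro h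
  rcases (Nat.Prime.dvd_mul hq).mp h with h1 | h1
  · exact hqN h1
  · have : q = ℓ := (Nat.prime_dvd_prime_iff_eq hq hℓ).mp h1
    exact hℓN (this ▸ Dvd.intro_left N rfl)

/-- **(D), `α`-side**, in the shape of helper8's #2183 -/
theorem s35pe_div_comm_alpha (hq : q.Prime) (hqN : ¬ q ∣ N) (hℓ : ℓ.Prime) (hℓN : ¬ ℓ ∣ N * q)
    (D : Divisor Kbar (Fbar (N * q))) (m : ℕ) (hm : m ≠ 0) (hD : (m • D).IsPrincipal) :
    Divisor.pushforwardAlong (heckeAlphaBar Kbar N q) (hib_alphaIntegral N q)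
        (Divisor.correspondence (heckeBetaBar Kbar (N * q) ℓ) (heckeAlphaBar Kbar (N * q) ℓ)
          (hib_betaIntegral (N * q) ℓ) (hib_alphaIntegral (N * q) ℓ) D) =
      Divisor.correspondence (heckeBetaBar Kbar N ℓ) (heckeAlphaBar Kbar N ℓ)
        (hib_betaIntegral N ℓ) (hib_alphaIntegral N ℓ)
        (Divisor.pushforwardAlong (heckeAlphaBar Kbar N q) (hib_alphaIntegral N q) D) :=
  s35pe_div_comm_alpha' N q ℓ hq (s35pe_not_dvd_mul N q ℓ hq hqN hℓ hℓN) D m hm hD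

/-- **(D), `β`-side** -/
theorem s35pe_div_comm_beta (hq : q.Prime) (hqN : ¬ q ∣ N) (hℓ : ℓ.Prime) (hℓN : ¬ ℓ ∣ N * q)
    (D : Divisor Kbar (Fbar (N * q))) (m : ℕ) (hm : m ≠ 0) (hD : (m • D).IsPrincipal) :
    Divisor.pushforwardAlong (heckeBetaBar Kbar N q) (hib_betaIntegral N q)
        (Divisor.correspondence (heckeBetaBar Kbar (N * q) ℓ) (heckeAlphaBar Kbar (N * q) ℓ)
          (hib_betaIntegral (N * q) ℓ) (hib_alphaIntegral (N * q) ℓ) D) =
      Divisor.correspondence (heckeBetaBar Kbar N ℓ) (heckeAlphaBar Kbar N ℓ)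
        (hib_betaIntegral N ℓ) (hib_alphaIntegral N ℓ)
        (Divisor.pushforwardAlong (heckeBetaBar Kbar N q) (hib_betaIntegral N q) D) :=
  s35pe_div_comm_beta' N q ℓ hq (s35pe_not_dvd_mul N q ℓ hq hqN hℓ hℓN) D m hm hD

end Fermat.Agent.S35
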